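/-
S20 core (G6), auxiliary file: the duality argument, with the decay of `Δ · A⁻¹` at `i∞` as an explicit
hypothesis `hdecay` (supplied in `GensDual.lean` from `Gens.tendsto_discriminant_mul_inv`).
-/
import Fermat.Agent.S20.GensRank

set_option autoImplicit false
set_option linter.unusedSectionVars false

namespace Fermat.Agent.S20

open UpperHalfPlane hiding I
open ModularForm CongruenceSubgroup Filter Topology Complex
open scoped MatrixGroups ModularForm Manifold Real Matrix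

local notation "Δ" => ModularForm.discriminant

namespace GensDualAux

/-- holomorphy of the determinant of a matrix with holomorphic entries -/
lemma mdiff_det {X : Type} [Fintype X] [DecidableEq X] (M : ℍ → Matrix X X ℂ)
    (hM : ∀ a b, MDiff (fun z => M z a b)) : MDiff (fun z => (M z).det) := by
  have h : (fun z => (M z).det) =
      ∑ σ : Equiv.Perm X, (fun _ : ℍ => (((Equiv.Perm.sign σ : ℤˣ) : ℤ) : ℂ)) *
        ∏ i, (fun z => M z (σ i) i) := by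
    funext z
    rw [Matrix.det_apply', Finset.sum_apply]
    refine Finset.sum_congr rfl fun σ _ => ?_
    rw [Pi.mul_apply, Finset.prod_apply]
  rw [h]
  refine MDifferentiable.sum fun σ _ => ?_
  refine MDifferentiable.mul mdifferentiable_const ?_
  exact MDifferentiable.prod fun i _ => hM (σ i) i

variable {N : ℕ} [NeZero N] (𝔊 : Gens N)

/-- the evaluation matrix (local copy of `Gens.evalMatrix`, definitionally equal to it). -/
noncomputable def mat (e : CosetX N ≃ 𝔊.J) (z : ℍ) : Matrix (CosetX N) (CosetX N) ℂ :=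
  Matrix.of fun i x => 𝔊.vec (e i) z x

variable [Fintype (CosetX N)] [DecidableEq (CosetX N)] (e : CosetX N ≃ 𝔊.J)

lemma mat_apply (z : ℍ) (i x : CosetX N) :
    mat 𝔊 e z i x = tr N (𝔊.κ (e i)) (𝔊.F (e i)) x z := rfl

lemma isUnit_det_mat (z : ℍ) : IsUnit (mat 𝔊 e z).det := by
  rw [← Matrix.isUnit_iff_isUnit_det, ← Matrix.linearIndependent_rows_iff_isUnit]
  exact (𝔊.linearIndependent_vec z).comp e e.injective

lemma det_mat_ne_zero (z : ℍ) : (mat 𝔊 e z).det ≠ 0 := (isUnit_det_mat 𝔊 e z).ne_zero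

lemma mat_mul_inv (z : ℍ) : mat 𝔊 e z * (mat 𝔊 e z)⁻¹ = 1 :=
  Matrix.mul_nonsing_inv _ (isUnit_det_mat 𝔊 e z)

lemma inv_mul_mat (z : ℍ) : (mat 𝔊 e z)⁻¹ * mat 𝔊 e z = 1 :=
  Matrix.nonsing_inv_mul _ (isUnit_det_mat 𝔊 e z)

lemma mdiff_mat (i x : CosetX N) : MDiff (fun z => mat 𝔊 e z i x) :=
  (𝔊.isMF (e i)).tr_holo x

lemma mdiff_inv (x i : CosetX N) : MDiff (fun z => (mat 𝔊 e z)⁻¹ x i) := by
  have h1 : (fun z => (mat 𝔊 e z)⁻¹ x i) =
      (fun z => ((mat 𝔊 e z).updateRow i (Pi.single x 1)).det) / (fun z => (mat 𝔊 e z).det) := by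
    funext z
    rw [Matrix.inv_def, Matrix.smul_apply, Matrix.adjugate_apply, Ring.inverse_eq_inv',
      smul_eq_mul, Pi.div_apply, div_eq_inv_mul]
  rw [h1]
  refine MDifferentiable.div ?_ ?_ (det_mat_ne_zero 𝔊 e)
  · refine mdiff_det _ fun a b => ?_
    by_cases h : a = i
    · subst h
      simp only [Matrix.updateRow_self]
      exact mdifferentiable_const
    · simp only [Matrix.updateRow_ne h]
      exact mdiff_mat 𝔊 e a b
  · exact mdiff_det _ fun a b => mdiff_mat 𝔊 e a b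

lemma mat_smul (g : SL(2, ℤ)) (z : ℍ) (i x : CosetX N) :
    mat 𝔊 e (g • z) i x = denom g z ^ 𝔊.κ (e i) * mat 𝔊 e z i (g⁻¹ • x) :=
  𝔊.vec_smul (e i) g z x

lemma inv_smul (g : SL(2, ℤ)) (z : ℍ) (x i : CosetX N) :
    (mat 𝔊 e (g • z))⁻¹ x i = denom g z ^ (-𝔊.κ (e i)) * (mat 𝔊 e z)⁻¹ (g⁻¹ • x) i := by
  have key : mat 𝔊 e (g • z) * (Matrix.of fun x i =>
      denom g z ^ (-𝔊.κ (e i)) * (mat 𝔊 e z)⁻¹ (g⁻¹ • x) i) = 1 := by
    ext i i'
    rw [Matrix.mul_apply]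
    simp only [Matrix.of_apply, mat_smul]
    have h1 : ∀ x : CosetX N, denom g z ^ 𝔊.κ (e i) * mat 𝔊 e z i (g⁻¹ • x) *
        (denom g z ^ (-𝔊.κ (e i')) * (mat 𝔊 e z)⁻¹ (g⁻¹ • x) i') =
        denom g z ^ 𝔊.κ (e i) * denom g z ^ (-𝔊.κ (e i')) *
          (fun y => mat 𝔊 e z i y * (mat 𝔊 e z)⁻¹ y i') (MulAction.toPerm g⁻¹ x) := by
      intro x
      simp only [MulAction.toPerm_apply]
      ring
    simp only [h1]
    rw [← Finset.mul_sum, Equiv.sum_comp (MulAction.toPerm g⁻¹)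
      (fun y => mat 𝔊 e z i y * (mat 𝔊 e z)⁻¹ y i'), ← Matrix.mul_apply, mat_mul_inv]
    by_cases h : i = i'
    · subst h
      rw [Matrix.one_apply_eq, mul_one, ← zpow_add₀ (denom_ne_zero g z), add_neg_cancel, zpow_zero]
    · rw [Matrix.one_apply_ne h, mul_zero]
  rw [Matrix.inv_eq_right_inv key]
  rfl

/-- the dual functions `H x i = Δ · (A⁻¹)_{x,i}`. -/
noncomputable def H (x i : CosetX N) : ℍ → ℂ := fun z => Δ z * (mat 𝔊 e z)⁻¹ x i

lemma H_apply (x i : CosetX N) (z : ℍ) : H 𝔊 e x i z = Δ z * (mat 𝔊 e z)⁻¹ x i := rfl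

lemma mdiff_H (x i : CosetX N) : MDiff (H 𝔊 e x i) :=
  MDifferentiable.mul CuspForm.discriminant.holo' (mdiff_inv 𝔊 e x i)

lemma discriminant_smul (g : SL(2, ℤ)) (z : ℍ) : Δ (g • z) = Δ z * denom g z ^ (12 : ℤ) := by
  have h := slash_apply_eq Δ 12 g z
  have h2 : (Δ ∣[(12 : ℤ)] g) = Δ :=
    SlashInvariantForm.slash_action_eqn CuspForm.discriminant _ ⟨g, rfl⟩
  rwa [h2] at h

lemma H_slash (g : SL(2, ℤ)) (x i : CosetX N) :
    (H 𝔊 e x i) ∣[12 - 𝔊.κ (e i)] g = H 𝔊 e (g⁻¹ • x) i := by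
  funext z
  have h := slash_apply_eq (H 𝔊 e x i) (12 - 𝔊.κ (e i)) g z
  have hd := denom_ne_zero g z
  rw [H_apply, inv_smul, discriminant_smul] at h
  rw [H_apply]
  have h3 : denom g z ^ (12 - 𝔊.κ (e i)) ≠ 0 := zpow_ne_zero _ hd
  apply mul_right_cancel₀ h3
  rw [← h, zpow_sub₀ hd, zpow_neg]
  field_simp


/-- the base point `x₀ = Γ₀(N)` of `X`. -/
noncomputable def x₀ (N : ℕ) : CosetX N := QuotientGroup.mk 1

omit [NeZero N] [Fintype (CosetX N)] [DecidableEq (CosetX N)] in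
lemma smul_x₀_of_mem (γ : SL(2, ℤ)) (hγ : γ ∈ Gamma0 N) : γ⁻¹ • x₀ N = x₀ N := by
  change (QuotientGroup.mk (γ⁻¹ * 1) : CosetX N) = QuotientGroup.mk 1
  rw [QuotientGroup.eq]
  simpa using hγ

omit [NeZero N] [Fintype (CosetX N)] [DecidableEq (CosetX N)] in
lemma exists_smul_x₀ (x : CosetX N) : ∃ g : SL(2, ℤ), g⁻¹ • x₀ N = x := by
  induction x using QuotientGroup.induction_on with
  | H a =>
    refine ⟨a⁻¹, ?_⟩
    change (QuotientGroup.mk (a⁻¹⁻¹ * 1) : CosetX N) = QuotientGroup.mk a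
    rw [inv_inv, mul_one]

section decay

variable (hdecay : ∀ x i : CosetX N,
  Tendsto (fun z : ℍ => Δ z * (mat 𝔊 e z)⁻¹ x i) atImInfty (𝓝 0))

include hdecay

lemma isCF_H (i : CosetX N) : IsCF N (12 - 𝔊.κ (e i)) (H 𝔊 e (x₀ N) i) where
  holo := mdiff_H 𝔊 e _ i
  slash γ hγ := by rw [H_slash, smul_x₀_of_mem γ hγ]
  zero g := by
    rw [H_slash]
    exact hdecay _ _

omit hdecay in
lemma H_ne_zero (i : CosetX N) : H 𝔊 e (x₀ N) i ≠ 0 := by
  intro h0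
  have hall : ∀ x, H 𝔊 e x i = 0 := by
    intro x
    obtain ⟨g, rfl⟩ := exists_smul_x₀ x
    rw [← H_slash, h0]
    exact SlashAction.zero_slash _ _
  have hcol : ∀ x, (mat 𝔊 e UpperHalfPlane.I)⁻¹ x i = 0 := by
    intro x
    have := congrFun (hall x) UpperHalfPlane.I
    rw [H_apply, Pi.zero_apply] at this
    exact (mul_eq_zero.mp this).resolve_left (discriminant_ne_zero _)
  have h1 := congrFun (congrFun (mat_mul_inv 𝔊 e UpperHalfPlane.I) i) i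
  rw [Matrix.mul_apply, Matrix.one_apply_eq] at h1
  simp only [hcol, mul_zero, Finset.sum_const_zero] at h1
  exact zero_ne_one h1

lemma κ_lt_twelve (i : CosetX N) : 𝔊.κ (e i) < 12 := by
  by_contra hlt
  rw [not_lt] at hlt
  have hcf := isCF_H 𝔊 e hdecay i
  apply H_ne_zero 𝔊 e i
  rcases hlt.lt_or_eq with h | h
  · exact hcf.isMF.eq_zero_of_neg (by linarith)
  · have h0 : 12 - 𝔊.κ (e i) = 0 := by rw [← h]; ring
    obtain ⟨c, hc⟩ := (hcf.isMF.cast h0).eq_const_of_zero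
    have hz : Tendsto (H 𝔊 e (x₀ N) i) atImInfty (𝓝 0) := by
      have := hcf.zero 1
      rwa [SlashAction.slash_one] at this
    rw [hc] at hz
    have hc0 : c = 0 := tendsto_nhds_unique tendsto_const_nhds hz
    rw [hc, hc0]
    rfl

lemma κ_le_ten_aux (j : 𝔊.J) : 𝔊.κ j ≤ 10 := by
  have h1 := κ_lt_twelve 𝔊 e hdecay (e.symm j)
  rw [e.apply_symm_apply] at h1
  obtain ⟨m, hm⟩ := 𝔊.κ_even j
  omega

end decay


/-! ### The pairing with a cusp form of weight 2 -/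

omit [NeZero N] in
lemma IsCF_cast {k k' : ℤ} {f : ℍ → ℂ} (h : k = k') (hf : IsCF N k f) : IsCF N k' f := h ▸ hf

/-- bundle a level one cusp form as a Mathlib level one cusp form -/
noncomputable def toCF1 {k : ℤ} {f : ℍ → ℂ} (h : IsCF 1 k f) : CuspForm 𝒮ℒ k where
  toFun := f
  slash_action_eq' := by
    rintro _ ⟨γ, rfl⟩
    exact h.isMF.slash_one γ
  holo' := h.holo
  zero_at_cusps' {c} hc := by
    rw [OnePoint.isZeroAt_iff_forall_SL2Z hc]
    exact fun γ _ => h.zero γ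

lemma coe_toCF1 {k : ℤ} {f : ℍ → ℂ} (h : IsCF 1 k f) : ⇑(toCF1 h) = f := rfl

/-- the pairing `P_i = ∑_x F_{i,x} f_x` of the generator `F_i` with `f`. -/
noncomputable def pairing (f : ℍ → ℂ) (i : CosetX N) : ℍ → ℂ :=
  ∑ x : CosetX N, tr N (𝔊.κ (e i)) (𝔊.F (e i)) x * tr N 2 f x

lemma pairing_apply (f : ℍ → ℂ) (i : CosetX N) (z : ℍ) :
    pairing 𝔊 e f i z = ∑ x : CosetX N, mat 𝔊 e z i x * tr N 2 f x z := by
  unfold pairing
  rw [Finset.sum_apply]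
  rfl

lemma pairing_slash {f : ℍ → ℂ} (hf : IsCF N 2 f) (i : CosetX N) (g : SL(2, ℤ)) :
    (pairing 𝔊 e f i) ∣[𝔊.κ (e i) + 2] g = pairing 𝔊 e f i := by
  unfold pairing
  rw [SlashAction.sum_slash]
  simp only [ModularForm.mul_slash_SL2, (𝔊.isMF (e i)).tr_slash, hf.isMF.tr_slash]
  exact Equiv.sum_comp (MulAction.toPerm g⁻¹)
    (fun y => tr N (𝔊.κ (e i)) (𝔊.F (e i)) y * tr N 2 f y)

lemma pairing_zero_at {f : ℍ → ℂ} (hf : IsCF N 2 f) (i : CosetX N) :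
    IsZeroAtImInfty (pairing 𝔊 e f i) := by
  unfold pairing
  have h : ∀ x : CosetX N, Tendsto (tr N (𝔊.κ (e i)) (𝔊.F (e i)) x * tr N 2 f x) atImInfty (𝓝 0) :=
    fun x => ((𝔊.isMF (e i)).tr_bdd x).mul_zeroAtFilter (hf.tr_zero x)
  have h2 := tendsto_finsetSum (Finset.univ : Finset (CosetX N)) (fun x _ => h x)
  simp only [Finset.sum_const_zero] at h2
  unfold IsZeroAtImInfty ZeroAtFilter
  convert h2 using 1
  funext z
  rw [Finset.sum_apply]

lemma pairing_isCF {f : ℍ → ℂ} (hf : IsCF N 2 f) (i : CosetX N) :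
    IsCF 1 (𝔊.κ (e i) + 2) (pairing 𝔊 e f i) where
  holo := by
    unfold pairing
    exact MDifferentiable.sum fun x _ =>
      MDifferentiable.mul ((𝔊.isMF (e i)).tr_holo x) (hf.isMF.tr_holo x)
  slash γ _ := pairing_slash 𝔊 e hf i γ
  zero γ := by
    rw [pairing_slash 𝔊 e hf i γ]
    exact pairing_zero_at 𝔊 e hf i

section decay2

variable (hdecay : ∀ x i : CosetX N,
  Tendsto (fun z : ℍ => Δ z * (mat 𝔊 e z)⁻¹ x i) atImInfty (𝓝 0))

include hdecay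

/-- `P_i = c_i Δ` with `c_i = 0` unless `κ_i = 10`. -/
lemma exists_const {f : ℍ → ℂ} (hf : IsCF N 2 f) (i : CosetX N) :
    ∃ c : ℂ, (𝔊.κ (e i) ≠ 10 → c = 0) ∧ ∀ z, pairing 𝔊 e f i z = Δ z * c := by
  set Pcf := toCF1 (pairing_isCF 𝔊 e hf i) with hPcf
  set Q := CuspForm.discriminantEquiv Pcf with hQ
  have hPQ : ∀ z, pairing 𝔊 e f i z = Δ z * Q z := fun z =>
    (ModularForm.discriminant_mul_discriminantEquiv_apply Pcf z).symm
  have hQmf : IsMF 1 (𝔊.κ (e i) + 2 - 12) Q := isMF_one_coe Q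
  have hlt := κ_lt_twelve 𝔊 e hdecay i
  obtain ⟨m, hm⟩ := 𝔊.κ_even (e i)
  by_cases h10 : 𝔊.κ (e i) = 10
  · obtain ⟨c, hc⟩ := (hQmf.cast (show 𝔊.κ (e i) + 2 - 12 = 0 by rw [h10]; norm_num)).eq_const_of_zero
    refine ⟨c, fun h => absurd h10 h, fun z => ?_⟩
    rw [hPQ z, hc]
  · have hneg : 𝔊.κ (e i) + 2 - 12 < 0 := by omega
    have h0 := hQmf.eq_zero_of_neg hneg
    refine ⟨0, fun _ => rfl, fun z => ?_⟩
    rw [hPQ z, h0, Pi.zero_apply]

end decay2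


/-! ### The basis of `S₂(Γ₀(N))` -/

lemma sum_subtype_eq {X : Type} [Fintype X] (p : X → Prop) [DecidablePred p]
    (c h : X → ℂ) (hc : ∀ i, ¬ p i → c i = 0) :
    ∑ i : {i // p i}, c i.1 * h i.1 = ∑ i, c i * h i := by
  rw [← Finset.sum_subtype (Finset.univ.filter p) (by simp) (fun i => c i * h i),
    Finset.sum_filter]
  refine Finset.sum_congr rfl fun i _ => ?_
  split_ifs with hp
  · rfl
  · rw [hc i hp, zero_mul]

lemma H_slash_two (g : SL(2, ℤ)) (x i : CosetX N) (hi : 𝔊.κ (e i) = 10) :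
    (H 𝔊 e x i) ∣[(2 : ℤ)] g = H 𝔊 e (g⁻¹ • x) i := by
  have h2 : (2 : ℤ) = 12 - 𝔊.κ (e i) := by rw [hi]; norm_num
  rw [h2]
  exact H_slash 𝔊 e g x i

/-- `∑_i c_i H_{x,i} = 0` for all `x` forces `c = 0`. -/
lemma eq_zero_of_sum_H (c : CosetX N → ℂ) (z : ℍ)
    (h : ∀ x, ∑ i, c i * H 𝔊 e x i z = 0) : c = 0 := by
  have h1 : (mat 𝔊 e z)⁻¹ *ᵥ c = 0 := by
    funext x
    have hx := h x
    simp only [H_apply] at hx
    have h2 : ∑ i, c i * (Δ z * (mat 𝔊 e z)⁻¹ x i) = Δ z * ∑ i, (mat 𝔊 e z)⁻¹ x i * c i := by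
      rw [Finset.mul_sum]
      exact Finset.sum_congr rfl fun i _ => by ring
    rw [h2] at hx
    have := (mul_eq_zero.mp hx).resolve_left (discriminant_ne_zero z)
    simpa [Matrix.mulVec, dotProduct] using this
  have h3 : mat 𝔊 e z *ᵥ ((mat 𝔊 e z)⁻¹ *ᵥ c) = c := by
    rw [Matrix.mulVec_mulVec, mat_mul_inv, Matrix.one_mulVec]
  rw [← h3, h1, Matrix.mulVec_zero]

/-- if `A v = Δ c` then `v_x = ∑_i c_i H_{x,i}`. -/
lemma eq_sum_H (c v : CosetX N → ℂ) (z : ℍ)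
    (h : ∀ i, ∑ x, mat 𝔊 e z i x * v x = Δ z * c i) (x : CosetX N) :
    v x = ∑ i, c i * H 𝔊 e x i z := by
  have h1 : mat 𝔊 e z *ᵥ v = Δ z • c := by
    funext i
    simpa [Matrix.mulVec, dotProduct] using h i
  have h3 : (mat 𝔊 e z)⁻¹ *ᵥ (mat 𝔊 e z *ᵥ v) = v := by
    rw [Matrix.mulVec_mulVec, inv_mul_mat, Matrix.one_mulVec]
  rw [← h3, h1]
  simp only [Matrix.mulVec, dotProduct, H_apply, Pi.smul_apply, smul_eq_mul]
  exact Finset.sum_congr rfl fun i _ => by ring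

section decay3

variable (hdecay : ∀ x i : CosetX N,
  Tendsto (fun z : ℍ => Δ z * (mat 𝔊 e z)⁻¹ x i) atImInfty (𝓝 0))

/-- the cusp forms of weight 2 dual to the generators of weight 10. -/
noncomputable def Hcf (i : {i : CosetX N // 𝔊.κ (e i) = 10}) : CuspForm (Gamma0 N) 2 :=
  IsCF.toCF (IsCF_cast (show 12 - 𝔊.κ (e i.1) = 2 by rw [i.2]; norm_num)
    (isCF_H 𝔊 e hdecay i.1))

lemma coe_Hcf (i : {i : CosetX N // 𝔊.κ (e i) = 10}) :
    ⇑(Hcf 𝔊 e hdecay i) = H 𝔊 e (x₀ N) i.1 := rfl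

lemma coe_sum_Hcf (c : {i : CosetX N // 𝔊.κ (e i) = 10} → ℂ) :
    ⇑(∑ i, c i • Hcf 𝔊 e hdecay i) = ∑ i, c i • H 𝔊 e (x₀ N) i.1 := by
  classical
  have : ∀ s : Finset {i : CosetX N // 𝔊.κ (e i) = 10},
      ⇑(∑ i ∈ s, c i • Hcf 𝔊 e hdecay i) = ∑ i ∈ s, c i • H 𝔊 e (x₀ N) i.1 := by
    intro s
    induction s using Finset.induction_on with
    | empty => simp
    | insert a s ha ih =>
      rw [Finset.sum_insert ha, Finset.sum_insert ha, FunLike.coe_add, ih]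
      rfl
  exact this _

lemma linearIndependent_Hcf : LinearIndependent ℂ (Hcf 𝔊 e hdecay) := by
  classical
  rw [Fintype.linearIndependent_iff]
  intro c hc i
  have hc' := congrArg (fun F : CuspForm (Gamma0 N) 2 => (⇑F : ℍ → ℂ)) hc
  simp only [coe_sum_Hcf] at hc'
  have hc'' : (∑ i, c i • H 𝔊 e (x₀ N) i.1 : ℍ → ℂ) = 0 := hc'
  set c' : CosetX N → ℂ := fun i => if h : 𝔊.κ (e i) = 10 then c ⟨i, h⟩ else 0 with hc'def
  have hc'0 : ∀ i, ¬ 𝔊.κ (e i) = 10 → c' i = 0 := fun i hi => dif_neg hi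
  have hc'1 : ∀ i : {i : CosetX N // 𝔊.κ (e i) = 10}, c' i.1 = c i := fun i => by
    simp only [hc'def, dif_pos i.2]
  have hall : ∀ x, ∑ i, c' i * H 𝔊 e x i UpperHalfPlane.I = 0 := by
    intro x
    obtain ⟨g, rfl⟩ := exists_smul_x₀ x
    rw [← sum_subtype_eq (fun i => 𝔊.κ (e i) = 10) c'
      (fun i => H 𝔊 e (g⁻¹ • x₀ N) i UpperHalfPlane.I) hc'0]
    have h1 := congrArg (fun F : ℍ → ℂ => (F ∣[(2 : ℤ)] g) UpperHalfPlane.I) hc''
    simp only [SlashAction.sum_slash, ModularForm.SL_smul_slash, SlashAction.zero_slash,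
      Finset.sum_apply, Pi.smul_apply, Pi.zero_apply, smul_eq_mul] at h1
    rw [← h1]
    refine Finset.sum_congr rfl fun i _ => ?_
    rw [hc'1, H_slash_two 𝔊 e g _ _ i.2]
  have h0 := eq_zero_of_sum_H 𝔊 e c' UpperHalfPlane.I hall
  rw [← hc'1, h0]
  rfl

include hdecay in
lemma exists_coeff (f : CuspForm (Gamma0 N) 2) :
    ∃ c : {i : CosetX N // 𝔊.κ (e i) = 10} → ℂ, f = ∑ i, c i • Hcf 𝔊 e hdecay i := by
  classical
  have hf : IsCF N 2 f := isCF_coe f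
  choose c hc0 hc using exists_const 𝔊 e hdecay hf
  refine ⟨fun i => c i.1, ?_⟩
  apply DFunLike.coe_injective
  rw [coe_sum_Hcf]
  funext z
  have h1 := eq_sum_H 𝔊 e c (fun x => tr N 2 f x z) z (fun i => by
    rw [← pairing_apply]
    exact hc i z) (x₀ N)
  have h2 : tr N 2 (⇑f) (x₀ N) z = f z := by
    unfold x₀
    rw [hf.isMF.tr_one]
  rw [h2] at h1
  rw [h1, ← sum_subtype_eq (fun i => 𝔊.κ (e i) = 10) c
      (fun i => H 𝔊 e (x₀ N) i z) (fun i hi => hc0 i hi)]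
  simp only [Finset.sum_apply, Pi.smul_apply, smul_eq_mul]

/-- the basis of `S₂(Γ₀(N))` dual to the generators of weight 10. -/
noncomputable def basisHcf :
    Module.Basis {i : CosetX N // 𝔊.κ (e i) = 10} ℂ (CuspForm (Gamma0 N) 2) :=
  Module.Basis.mk (linearIndependent_Hcf 𝔊 e hdecay) (by
    classical
    intro f _
    obtain ⟨c, hc⟩ := exists_coeff 𝔊 e hdecay f
    rw [hc]
    exact Submodule.sum_mem _ fun i _ =>
      Submodule.smul_mem _ _ (Submodule.subset_span ⟨i, rfl⟩))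

include hdecay in
lemma finrank_aux :
    Module.finrank ℂ (CuspForm (Gamma0 N) 2) = Nat.card {j : 𝔊.J // 𝔊.κ j = 10} := by
  rw [Module.finrank_eq_nat_card_basis (basisHcf 𝔊 e hdecay)]
  exact Nat.card_congr (e.subtypeEquiv fun i => Iff.rfl)

end decay3

end GensDualAux

end Fermat.Agent.S20
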